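/-
S59lib / Wa / CrossedLiftFree  (helper3).   Project I, item (W-a): the `p = 3` version of
`S43lib/B1/CrossedLift`.

`S43lib.B1.exists_crossed_lift` lifts crossed homomorphisms `SL(2, ℤ) → A''` along an equivariant
surjection `π : A ↠ A''` when `2` and `3` are invertible in the coefficient ring.  The only place
where `3` is inverted is the averaging step for the element `ρ = S T` of order `3` (mod `±1`).
Here `3` need not be invertible: it is replaced by the vanishing of the Tate group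
`Ĥ⁰(⟨ρ⟩, ker π)`, i.e. every `ρ`-invariant element of `ker π` is a norm `b + ρ b + ρ² b` of an
element of `ker π` (true for the coinduced modules of subgroups without elements of order `3`:
`Wa/ShapiroFree`).
-/
import Mathlib
import Fermat.Agent.S43lib.B1.CrossedLift

set_option autoImplicit false
set_option linter.unusedSectionVars false
set_option linter.unusedVariables false

noncomputable section

namespace Fermat.Agent.S59lib.Wa

open ModularGroup Matrix.SpecialLinearGroup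
open Fermat.Agent.S43lib.B1
open scoped MatrixGroups

section lift

variable (R : Type*) [CommRing R] [Invertible (2 : R)]
variable {A A'' : Type*} [AddCommGroup A] [AddCommGroup A''] [Module R A] [Module R A'']
  [DistribMulAction SL(2, ℤ) A] [DistribMulAction SL(2, ℤ) A'']
  [SMulCommClass SL(2, ℤ) R A] [SMulCommClass SL(2, ℤ) R A'']

include R in
/-- the averaging step for an element `σ` acting as an involution (copy of
`S43lib.B1.exists_lift_two`, which carries an unused `Invertible 3` instance) -/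
theorem exists_lift_two_of_inv (σ : SL(2, ℤ)) (hσA : ∀ a : A, σ • σ • a = a)
    (π : A →ₗ[R] A'') (hπ : ∀ (g : SL(2, ℤ)) (a : A), π (g • a) = g • π a)
    (hsurj : Function.Surjective π) (a'' : A'') (ha'' : a'' + σ • a'' = 0) :
    ∃ a : A, a + σ • a = 0 ∧ π a = a'' := by
  obtain ⟨a₀, ha₀⟩ := hsurj a''
  refine ⟨(⅟(2 : R)) • (a₀ - σ • a₀), ?_, ?_⟩
  · rw [smul_comm σ (⅟(2 : R)), ← smul_add, smul_sub, hσA]
    have : a₀ - σ • a₀ + (σ • a₀ - a₀) = 0 := by abel
    rw [this, smul_zero]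
  · rw [map_smul, map_sub, hπ, ha₀]
    have h1 : σ • a'' = -a'' := by
      rw [eq_neg_iff_add_eq_zero, add_comm]; exact ha''
    rw [h1, sub_neg_eq_add, ← two_smul R, smul_smul, invOf_mul_self, one_smul]

include R in
/-- the lifting step for an element `ρ` acting with order `3`, from `Ĥ⁰(⟨ρ⟩, ker π) = 0` -/
theorem exists_lift_three_of_tate (ρ : SL(2, ℤ)) (hρA : ∀ a : A, ρ • ρ • ρ • a = a)
    (π : A →ₗ[R] A'') (hπ : ∀ (g : SL(2, ℤ)) (a : A), π (g • a) = g • π a)
    (hsurj : Function.Surjective π)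
    (h3 : ∀ a : A, π a = 0 → ρ • a = a → ∃ b : A, π b = 0 ∧ a = b + ρ • b + ρ • ρ • b)
    (b'' : A'') (hb'' : b'' + ρ • b'' + ρ • ρ • b'' = 0) :
    ∃ b : A, b + ρ • b + ρ • ρ • b = 0 ∧ π b = b'' := by
  obtain ⟨b₀, hb₀⟩ := hsurj b''
  have hπa : π (b₀ + ρ • b₀ + ρ • ρ • b₀) = 0 := by
    rw [map_add, map_add, hπ, hπ, hπ, hb₀, hb'']
  have hρa : ρ • (b₀ + ρ • b₀ + ρ • ρ • b₀) = b₀ + ρ • b₀ + ρ • ρ • b₀ := by
    rw [smul_add, smul_add, hρA]
    abel
  obtain ⟨b', hπb', hb'⟩ := h3 _ hπa hρa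
  refine ⟨b₀ - b', ?_, ?_⟩
  · simp only [smul_sub]
    have : b₀ - b' + (ρ • b₀ - ρ • b') + (ρ • ρ • b₀ - ρ • ρ • b') =
        (b₀ + ρ • b₀ + ρ • ρ • b₀) - (b' + ρ • b' + ρ • ρ • b') := by abel
    rw [this, ← hb', sub_self]
  · rw [map_sub, hπb', sub_zero, hb₀]

include R in
/-- **Lifting of crossed homomorphisms** along an equivariant surjection, `3` not necessarily
invertible: the hypothesis `h3` is `Ĥ⁰(⟨S T⟩, ker π) = 0`. -/
theorem exists_crossed_lift_of_tate
    (hneg : ∀ a : A, (-1 : SL(2, ℤ)) • a = a) (hneg'' : ∀ a : A'', (-1 : SL(2, ℤ)) • a = a)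
    (π : A →ₗ[R] A'') (hπ : ∀ (g : SL(2, ℤ)) (a : A), π (g • a) = g • π a)
    (hsurj : Function.Surjective π)
    (h3 : ∀ a : A, π a = 0 → (S * T) • a = a →
      ∃ b : A, π b = 0 ∧ a = b + (S * T) • b + (S * T) • (S * T) • b)
    (c'' : SL(2, ℤ) → A'') (hc'' : ∀ g h, c'' (g * h) = c'' g + g • c'' h) :
    ∃ c : SL(2, ℤ) → A, (∀ g h, c (g * h) = c g + g • c h) ∧ ∀ g, π (c g) = c'' g := by
  -- `c''(1) = 0`, `c''(-1) = 0`
  have h2A'' : ∀ x : A'', x + x = 0 → x = 0 := by
    intro x hx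
    have h : (2 : R) • x = 0 := by rw [two_smul]; exact hx
    have := congrArg (fun y => (⅟(2 : R)) • y) h
    simpa [smul_smul] using this
  have hc1 : c'' 1 = 0 := by
    have h := hc'' 1 1
    rw [mul_one, one_smul] at h
    exact left_eq_add.mp h
  have hcneg : c'' (-1) = 0 := by
    apply h2A''
    have h := hc'' (-1) (-1)
    rw [hneg'', show (-1 : SL(2, ℤ)) * (-1) = 1 by simp, hc1] at h
    exact h.symm
  -- generic names for the two generators
  obtain ⟨σ, hσ⟩ : ∃ σ : SL(2, ℤ), σ = S := ⟨_, rfl⟩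
  obtain ⟨ρ, hρ⟩ : ∃ ρ : SL(2, ℤ), ρ = S * T := ⟨_, rfl⟩
  rw [← hρ] at h3
  have hSS : σ * σ = -1 := by rw [hσ, ← pow_two, S_sq]
  have hRRR : ρ * ρ * ρ = -1 := by
    rw [hρ, ← pow_two, ← pow_succ]; exact R_cube
  have ha'' : c'' σ + σ • c'' σ = 0 := by
    rw [← hc'', hSS, hcneg]
  have hb'' : c'' ρ + ρ • c'' ρ + ρ • ρ • c'' ρ = 0 := by
    have h1 : c'' (ρ * ρ * ρ) = c'' ρ + ρ • c'' ρ + ρ • ρ • c'' ρ := by
      rw [hc'', hc'', mul_smul]
    rw [← h1, hRRR, hcneg]
  have hSSA : ∀ a : A, σ • σ • a = a := by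
    intro a
    rw [← mul_smul, hSS, hneg]
  have hRRRA : ∀ a : A, ρ • ρ • ρ • a = a := by
    intro a
    rw [← mul_smul, ← mul_smul, hRRR, hneg]
  obtain ⟨a, haS, hπa⟩ := exists_lift_two_of_inv R σ hSSA π hπ hsurj (c'' σ) ha''
  obtain ⟨b, hbR, hπb⟩ := exists_lift_three_of_tate R ρ hRRRA π hπ hsurj h3 (c'' ρ) hb''
  -- the homomorphism into the semidirect product
  let s : SD SL(2, ℤ) A := ⟨a, σ⟩
  let r : SD SL(2, ℤ) A := ⟨b, ρ⟩
  have hs2 : s ^ 2 = ⟨0, -1⟩ := by
    rw [pow_two]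
    apply SD.ext
    · exact haS
    · exact hSS
  have hr3 : r ^ 3 = ⟨0, -1⟩ := by
    rw [pow_succ, pow_two]
    apply SD.ext
    · show b + ρ • b + (ρ * ρ) • b = 0
      rw [mul_smul]
      exact hbR
    · exact hRRR
  have hs4 : s ^ 4 = 1 := by
    rw [show 4 = 2 * 2 by norm_num, pow_mul, hs2, pow_two]
    apply SD.ext
    · show (0 : A) + (-1 : SL(2, ℤ)) • (0 : A) = 0
      rw [smul_zero, add_zero]
    · show (-1 : SL(2, ℤ)) * (-1) = 1
      simp
  obtain ⟨F, hFS, hFR⟩ := exists_hom_of_SL2Z s r hs4 (by rw [hs2, hr3])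
  rw [← hσ] at hFS
  rw [← hρ] at hFR
  have hFg : ∀ g, (F g).g = g := by
    have : (SD.snd).comp F = MonoidHom.id _ := by
      apply hom_ext_SL2Z
      · show (F S).g = S
        rw [← hσ, hFS]
      · show (F (S * T)).g = S * T
        rw [← hρ, hFR]
    intro g
    exact congrArg (fun f : SL(2, ℤ) →* SL(2, ℤ) => f g) this
  refine ⟨fun g => (F g).a, ?_, ?_⟩
  · intro g h
    show (F (g * h)).a = (F g).a + g • (F h).a
    rw [map_mul, SD.mul_a, hFg]
  · -- compare the two homomorphisms into `A'' ⋊ SL(2, ℤ)`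
    have hcross : ∀ g h, π ((F (g * h)).a) = π ((F g).a) + g • π ((F h).a) := by
      intro g h
      rw [map_mul, SD.mul_a, hFg, map_add, hπ]
    have heq : SD.ofCrossed (fun g => π ((F g).a)) hcross = SD.ofCrossed c'' hc'' := by
      apply hom_ext_SL2Z
      · apply SD.ext
        · show π ((F S).a) = c'' S
          rw [← hσ, hFS]
          exact hπa
        · rfl
      · apply SD.ext
        · show π ((F (S * T)).a) = c'' (S * T)
          rw [← hρ, hFR]
          exact hπb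
        · rfl
    intro g
    have := congrArg (fun f : SL(2, ℤ) →* SD SL(2, ℤ) A'' => (f g).a) heq
    exact this

end lift

end Fermat.Agent.S59lib.Wa
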