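/-
S59lib / Wa / ShapiroFree  (helper3).   Project I, item (W-a): the `p = 3` version of
`S43lib/B1/ShapiroW`.

Right exactness of `W ↦ Z¹(Γ, W)` for a subgroup `Γ` of `SL(2, ℤ)` containing `-1` and WITHOUT
ELEMENTS OF ORDER `3` modulo `±1` (`NoOrderThree Γ`: no conjugate of `S T` lies in `Γ`), with
coefficients in modules over a ring in which only `2` is invertible.

The point: `⟨S T⟩ / ±1` acts freely on `Γ \ SL(2, ℤ)`, so on a coinduced module every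
`S T`-invariant element is a norm (choose one coset in every orbit: `IsDist`), i.e.
`Ĥ⁰(⟨S T⟩, coInd) = 0`, which is the hypothesis of `Wa.exists_crossed_lift_of_tate`.
-/
import Mathlib
import Fermat.Agent.S43lib.B1.ShapiroW
import Fermat.Agent.S59lib.Wa.CrossedLiftFree

set_option autoImplicit false
set_option linter.unusedSectionVars false
set_option linter.unusedVariables false

noncomputable section

namespace Fermat.Agent.S59lib.Wa

open ModularGroup Matrix.SpecialLinearGroup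
open Fermat.Agent.S43lib.B1
open scoped MatrixGroups

/-- `Γ₀` contains no conjugate of `S T` (no element of order `3` modulo `±1`). -/
def NoOrderThree (Γ₀ : Subgroup SL(2, ℤ)) : Prop :=
  ∀ t : SL(2, ℤ), t * (S * T) * t⁻¹ ∉ Γ₀

theorem NoOrderThree.mono {Γ₀ Γ₁ : Subgroup SL(2, ℤ)} (h : Γ₀ ≤ Γ₁) (h₁ : NoOrderThree Γ₁) :
    NoOrderThree Γ₀ := fun t ht => h₁ t (h ht)

/-! ### powers of `ρ = S T` -/

theorem rho_zpow_three : (S * T : SL(2, ℤ)) ^ (3 : ℤ) = -1 := by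
  have h : ((S * T : SL(2, ℤ)) ^ (3 : ℤ)) = (S * T : SL(2, ℤ)) ^ (3 : ℕ) := by
    rw [← zpow_natCast]
    rfl
  rw [h]
  exact R_cube

theorem neg_one_zpow_mem {Γ₀ : Subgroup SL(2, ℤ)} (hneg : (-1 : SL(2, ℤ)) ∈ Γ₀) (k : ℤ) :
    ((-1 : SL(2, ℤ)) ^ k) ∈ Γ₀ := Γ₀.zpow_mem hneg k

theorem neg_one_commute (t : SL(2, ℤ)) : Commute (-1 : SL(2, ℤ)) t := by
  show -1 * t = t * -1
  rw [mul_neg, mul_one, neg_mul, one_mul]

/-- every integral power of `ρ` is `± ρ^j`, `j ∈ {0, 1, 2}` -/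
theorem rho_zpow_eq (i : ℤ) : ∃ (k : ℤ) (j : ℕ), j < 3 ∧
    (S * T : SL(2, ℤ)) ^ i = (-1 : SL(2, ℤ)) ^ k * (S * T : SL(2, ℤ)) ^ j := by
  have h0 : 0 ≤ i % 3 := Int.emod_nonneg i (by norm_num)
  have h3 : i % 3 < 3 := Int.emod_lt_of_pos i (by norm_num)
  refine ⟨i / 3, (i % 3).toNat, by omega, ?_⟩
  have hi : i = 3 * (i / 3) + i % 3 := (Int.mul_ediv_add_emod i 3).symm
  conv_lhs => rw [hi]
  rw [zpow_add, zpow_mul, rho_zpow_three]
  congr 1
  conv_lhs => rw [← Int.toNat_of_nonneg h0]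
  rw [zpow_natCast]

/-! ### the orbits of `Γ₀ × ⟨ρ⟩` on `SL(2, ℤ)` -/

variable (Γ₀ : Subgroup SL(2, ℤ))

/-- the orbit relation of `Γ₀` (on the left) and `⟨S T⟩` (on the right) -/
def orbSetoid : Setoid SL(2, ℤ) where
  r t t' := ∃ γ ∈ Γ₀, ∃ i : ℤ, t' = γ * t * (S * T : SL(2, ℤ)) ^ i
  iseqv := by
    refine ⟨fun t => ⟨1, Γ₀.one_mem, 0, by simp⟩, ?_, ?_⟩
    · rintro t t' ⟨γ, hγ, i, rfl⟩
      refine ⟨γ⁻¹, Γ₀.inv_mem hγ, -i, ?_⟩
      rw [mul_assoc γ, inv_mul_cancel_left, mul_assoc, ← zpow_add, add_neg_cancel, zpow_zero,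
        mul_one]
    · rintro t t' t'' ⟨γ, hγ, i, rfl⟩ ⟨γ', hγ', i', rfl⟩
      refine ⟨γ' * γ, Γ₀.mul_mem hγ' hγ, i + i', ?_⟩
      rw [zpow_add]
      simp only [mul_assoc]

/-- the chosen representative of the orbit of `t` -/
def orep (t : SL(2, ℤ)) : SL(2, ℤ) := (Quotient.mk (orbSetoid Γ₀) t).out

theorem orep_rel (t : SL(2, ℤ)) :
    ∃ γ ∈ Γ₀, ∃ i : ℤ, t = γ * orep Γ₀ t * (S * T : SL(2, ℤ)) ^ i :=
  Quotient.mk_out (s := orbSetoid Γ₀) t

theorem orep_eq_of_rel {t t' : SL(2, ℤ)} (h : (orbSetoid Γ₀).r t t') : orep Γ₀ t = orep Γ₀ t' := by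
  unfold orep
  congr 1
  exact Quotient.sound h

theorem orep_mul_left {γ : SL(2, ℤ)} (hγ : γ ∈ Γ₀) (t : SL(2, ℤ)) :
    orep Γ₀ (γ * t) = orep Γ₀ t :=
  (orep_eq_of_rel Γ₀ ⟨γ, hγ, 0, by simp⟩).symm

theorem orep_mul_rho (t : SL(2, ℤ)) : orep Γ₀ (t * (S * T)) = orep Γ₀ t :=
  (orep_eq_of_rel Γ₀ ⟨1, Γ₀.one_mem, 1, by simp⟩).symm

/-- `t` lies in the distinguished coset of its orbit -/
def IsDist (t : SL(2, ℤ)) : Prop := ∃ γ ∈ Γ₀, t = γ * orep Γ₀ t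

theorem isDist_mul_left_iff {γ : SL(2, ℤ)} (hγ : γ ∈ Γ₀) (t : SL(2, ℤ)) :
    IsDist Γ₀ (γ * t) ↔ IsDist Γ₀ t := by
  constructor
  · rintro ⟨γ', hγ', h⟩
    rw [orep_mul_left Γ₀ hγ] at h
    refine ⟨γ⁻¹ * γ', Γ₀.mul_mem (Γ₀.inv_mem hγ) hγ', ?_⟩
    rw [mul_assoc, ← h, inv_mul_cancel_left]
  · rintro ⟨γ', hγ', h⟩
    refine ⟨γ * γ', Γ₀.mul_mem hγ hγ', ?_⟩
    rw [orep_mul_left Γ₀ hγ, mul_assoc, ← h]

variable {Γ₀}

theorem isDist_of_eq {t c γ' : SL(2, ℤ)} (hc : orep Γ₀ t = c) (hγ' : γ' ∈ Γ₀) (h : t = γ' * c) :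
    IsDist Γ₀ t := ⟨γ', hγ', by rw [hc]; exact h⟩

/-- one of `t`, `t ρ`, `t ρ²` is distinguished -/
theorem isDist_cases (hneg : (-1 : SL(2, ℤ)) ∈ Γ₀) (t : SL(2, ℤ)) :
    IsDist Γ₀ t ∨ IsDist Γ₀ (t * (S * T)) ∨ IsDist Γ₀ (t * (S * T) * (S * T)) := by
  obtain ⟨c, hc⟩ : ∃ c, orep Γ₀ t = c := ⟨_, rfl⟩
  obtain ⟨γ, hγ, i, hi⟩ := orep_rel Γ₀ t
  rw [hc] at hi
  obtain ⟨k, j, hj, hij⟩ := rho_zpow_eq i
  rw [hij] at hi
  have hcomm : ∀ m : ℤ, ∀ x : SL(2, ℤ), x * (-1 : SL(2, ℤ)) ^ m = (-1 : SL(2, ℤ)) ^ m * x :=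
    fun m x => ((neg_one_commute x).zpow_left m).eq.symm
  have hcomm1 : ∀ x : SL(2, ℤ), x * (-1 : SL(2, ℤ)) = (-1 : SL(2, ℤ)) * x :=
    fun x => (neg_one_commute x).eq.symm
  have hcube : (S * T : SL(2, ℤ)) * (S * T) * (S * T) = -1 := by
    have := R_cube
    rw [pow_succ, pow_two] at this
    exact this
  interval_cases j
  · left
    refine isDist_of_eq hc (Γ₀.mul_mem hγ (neg_one_zpow_mem hneg k)) ?_
    calc t = γ * c * ((-1 : SL(2, ℤ)) ^ k * (S * T) ^ 0) := hi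
      _ = γ * (c * (-1 : SL(2, ℤ)) ^ k) := by rw [pow_zero, mul_one, mul_assoc]
      _ = γ * (-1 : SL(2, ℤ)) ^ k * c := by rw [hcomm, mul_assoc]
  · right; right
    refine isDist_of_eq (by rw [orep_mul_rho, orep_mul_rho, hc])
      (Γ₀.mul_mem (Γ₀.mul_mem hγ (neg_one_zpow_mem hneg k)) hneg) ?_
    calc t * (S * T) * (S * T)
        = γ * c * ((-1 : SL(2, ℤ)) ^ k * (S * T) ^ 1) * (S * T) * (S * T) := by rw [← hi]
      _ = γ * (c * (-1 : SL(2, ℤ)) ^ k) * ((S * T) * (S * T) * (S * T)) := by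
          rw [pow_one]; simp only [mul_assoc]
      _ = γ * ((-1 : SL(2, ℤ)) ^ k * c) * (-1) := by rw [hcomm, hcube]
      _ = γ * ((-1 : SL(2, ℤ)) ^ k * (c * -1)) := by simp only [mul_assoc]
      _ = γ * ((-1 : SL(2, ℤ)) ^ k * (-1 * c)) := by rw [hcomm1]
      _ = γ * (-1 : SL(2, ℤ)) ^ k * -1 * c := by simp only [mul_assoc]
  · right; left
    refine isDist_of_eq (by rw [orep_mul_rho, hc])
      (Γ₀.mul_mem (Γ₀.mul_mem hγ (neg_one_zpow_mem hneg k)) hneg) ?_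
    calc t * (S * T)
        = γ * c * ((-1 : SL(2, ℤ)) ^ k * (S * T) ^ 2) * (S * T) := by rw [← hi]
      _ = γ * (c * (-1 : SL(2, ℤ)) ^ k) * ((S * T) * (S * T) * (S * T)) := by
          rw [pow_two]; simp only [mul_assoc]
      _ = γ * ((-1 : SL(2, ℤ)) ^ k * c) * (-1) := by rw [hcomm, hcube]
      _ = γ * ((-1 : SL(2, ℤ)) ^ k * (c * -1)) := by simp only [mul_assoc]
      _ = γ * ((-1 : SL(2, ℤ)) ^ k * (-1 * c)) := by rw [hcomm1]
      _ = γ * (-1 : SL(2, ℤ)) ^ k * -1 * c := by simp only [mul_assoc]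

/-- `t` and `t ρ` are not both distinguished -/
theorem not_isDist_rho (hfree : NoOrderThree Γ₀) (t : SL(2, ℤ)) (h : IsDist Γ₀ t)
    (h' : IsDist Γ₀ (t * (S * T))) : False := by
  obtain ⟨γ₁, hγ₁, h₁⟩ := h
  obtain ⟨γ₂, hγ₂, h₂⟩ := h'
  rw [orep_mul_rho] at h₂
  apply hfree (orep Γ₀ t)
  have e : orep Γ₀ t * (S * T) * (orep Γ₀ t)⁻¹ = γ₁⁻¹ * γ₂ := by
    have h3 : γ₁ * orep Γ₀ t * (S * T) = γ₂ * orep Γ₀ t := by rw [← h₁, h₂]
    calc orep Γ₀ t * (S * T) * (orep Γ₀ t)⁻¹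
        = γ₁⁻¹ * (γ₁ * orep Γ₀ t * (S * T)) * (orep Γ₀ t)⁻¹ := by
          simp only [mul_assoc, inv_mul_cancel_left]
      _ = γ₁⁻¹ * γ₂ := by rw [h3]; simp only [mul_assoc, mul_inv_cancel, mul_one]
  rw [e]
  exact Γ₀.mul_mem (Γ₀.inv_mem hγ₁) hγ₂

/-- `t` and `t ρ²` are not both distinguished -/
theorem not_isDist_rho_sq (hneg : (-1 : SL(2, ℤ)) ∈ Γ₀) (hfree : NoOrderThree Γ₀) (t : SL(2, ℤ))
    (h : IsDist Γ₀ t) (h' : IsDist Γ₀ (t * (S * T) * (S * T))) : False := by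
  -- `t ρ² ρ = - t`
  have hcube : (S * T : SL(2, ℤ)) * (S * T) * (S * T) = -1 := by
    have := R_cube
    rw [pow_succ, pow_two] at this
    exact this
  have h'' : IsDist Γ₀ (t * (S * T) * (S * T) * (S * T)) := by
    have e : t * (S * T) * (S * T) * (S * T) = -1 * t := by
      rw [mul_assoc t, mul_assoc t, hcube]
      exact ((neg_one_commute t).eq).symm
    rw [e]
    exact (isDist_mul_left_iff Γ₀ hneg t).2 h
  exact not_isDist_rho hfree _ h' h''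

/-! ### Tate vanishing for the coinduced modules -/

variable {G : Type*} [Group G] {π : ↥Γ₀ →* G}
variable {R : Type*} [CommRing R]
variable {W : Type*} [AddCommGroup W] [Module R W] [DistribMulAction G W] [SMulCommClass G R W]
variable {W'' : Type*} [AddCommGroup W''] [Module R W''] [DistribMulAction G W'']
  [SMulCommClass G R W'']

open Classical in
/-- the part of `u` supported on the distinguished cosets -/
def distPart (u : ↥(coIndW π R W)) : ↥(coIndW π R W) :=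
  ⟨fun t => if IsDist Γ₀ t then (u : SL(2, ℤ) → W) t else 0, by
    intro γ t
    show (if IsDist Γ₀ ((γ : SL(2, ℤ)) * t) then (u : SL(2, ℤ) → W) ((γ : SL(2, ℤ)) * t) else 0) =
      π γ • (if IsDist Γ₀ t then (u : SL(2, ℤ) → W) t else 0)
    by_cases h : IsDist Γ₀ t
    · rw [if_pos h, if_pos ((isDist_mul_left_iff Γ₀ γ.2 t).2 h), u.2]
    · rw [if_neg h, if_neg (fun h' => h ((isDist_mul_left_iff Γ₀ γ.2 t).1 h')), smul_zero]⟩

open Classical in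
theorem distPart_apply (u : ↥(coIndW π R W)) (t : SL(2, ℤ)) :
    ((distPart u : ↥(coIndW π R W)) : SL(2, ℤ) → W) t =
      if IsDist Γ₀ t then (u : SL(2, ℤ) → W) t else 0 := rfl

/-- **`Ĥ⁰(⟨S T⟩, coInd) = 0`** when `⟨S T⟩` acts freely on `Γ₀ \ SL(2, ℤ)`: an `S T`-invariant
element is the norm of its distinguished part. -/
theorem eq_norm_distPart (hneg : (-1 : SL(2, ℤ)) ∈ Γ₀) (hfree : NoOrderThree Γ₀)
    (u : ↥(coIndW π R W)) (hu : (S * T : SL(2, ℤ)) • u = u) :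
    u = distPart u + (S * T : SL(2, ℤ)) • distPart u +
      (S * T : SL(2, ℤ)) • (S * T : SL(2, ℤ)) • distPart u := by
  classical
  have hu1 : ∀ t, (u : SL(2, ℤ) → W) (t * (S * T)) = (u : SL(2, ℤ) → W) t := by
    intro t
    have := congrArg (fun x : ↥(coIndW π R W) => (x : SL(2, ℤ) → W) t) hu
    simpa using this
  apply Subtype.ext
  funext t
  show (u : SL(2, ℤ) → W) t =
    ((distPart u : ↥(coIndW π R W)) : SL(2, ℤ) → W) t +
      ((distPart u : ↥(coIndW π R W)) : SL(2, ℤ) → W) (t * (S * T)) +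
      ((distPart u : ↥(coIndW π R W)) : SL(2, ℤ) → W) (t * (S * T) * (S * T))
  rw [distPart_apply, distPart_apply, distPart_apply]
  simp only [hu1]
  rcases isDist_cases hneg t with h | h | h
  · have h1 : ¬ IsDist Γ₀ (t * (S * T)) := fun h' => not_isDist_rho hfree t h h'
    have h2 : ¬ IsDist Γ₀ (t * (S * T) * (S * T)) := fun h' => not_isDist_rho_sq hneg hfree t h h'
    rw [if_pos h, if_neg h1, if_neg h2, add_zero, add_zero]
  · have h0 : ¬ IsDist Γ₀ t := fun h' => not_isDist_rho hfree t h' h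
    have h2 : ¬ IsDist Γ₀ (t * (S * T) * (S * T)) := fun h' => not_isDist_rho hfree _ h h'
    rw [if_neg h0, if_pos h, if_neg h2, zero_add, add_zero]
  · have h0 : ¬ IsDist Γ₀ t := fun h' => not_isDist_rho_sq hneg hfree t h' h
    have h1 : ¬ IsDist Γ₀ (t * (S * T)) := fun h' => not_isDist_rho hfree _ h' h
    rw [if_neg h0, if_neg h1, if_pos h, zero_add, zero_add]

/-! ### The lifting theorem -/

theorem coIndW_map_apply' (v : W →ₗ[R] W'') (hv : IsEquivar G v) (u : ↥(coIndW π R W))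
    (t : SL(2, ℤ)) :
    ((coIndW.map v hv u : ↥(coIndW π R W'')) : SL(2, ℤ) → W'') t = v ((u : SL(2, ℤ) → W) t) := rfl

theorem coIndW_map_surjective' (v : W →ₗ[R] W'') (hv : IsEquivar G v)
    (hsurj : Function.Surjective v) : Function.Surjective (coIndW.map (π := π) v hv) := by
  intro u''
  choose lift hlift using hsurj
  refine ⟨⟨fun t => π (rcomp Γ₀ t) • lift ((u'' : SL(2, ℤ) → W'') (rrep Γ₀ t)), ?_⟩, ?_⟩
  · intro γ t
    show π (rcomp Γ₀ ((γ : SL(2, ℤ)) * t)) • lift ((u'' : SL(2, ℤ) → W'') (rrep Γ₀ ((γ : SL(2, ℤ)) * t)))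
      = π γ • π (rcomp Γ₀ t) • lift ((u'' : SL(2, ℤ) → W'') (rrep Γ₀ t))
    rw [rcomp_mul, rrep_mul, map_mul, mul_smul]
  · apply Subtype.ext
    funext t
    show v (π (rcomp Γ₀ t) • lift ((u'' : SL(2, ℤ) → W'') (rrep Γ₀ t))) = (u'' : SL(2, ℤ) → W'') t
    rw [hv, hlift, ← u''.2, rcomp_mul_rrep]

/-- the Tate hypothesis of `exists_crossed_lift_of_tate` for `coIndW.map v` -/
theorem coIndW_tate (hneg : (-1 : SL(2, ℤ)) ∈ Γ₀) (hfree : NoOrderThree Γ₀)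
    (v : W →ₗ[R] W'') (hv : IsEquivar G v) (u : ↥(coIndW π R W))
    (hu0 : coIndW.map (π := π) v hv u = 0) (hu : (S * T : SL(2, ℤ)) • u = u) :
    ∃ b : ↥(coIndW π R W), coIndW.map (π := π) v hv b = 0 ∧
      u = b + (S * T : SL(2, ℤ)) • b + (S * T : SL(2, ℤ)) • (S * T : SL(2, ℤ)) • b := by
  classical
  refine ⟨distPart u, ?_, eq_norm_distPart hneg hfree u hu⟩
  apply Subtype.ext
  funext t
  rw [coIndW_map_apply', distPart_apply]
  have h0 : v ((u : SL(2, ℤ) → W) t) = 0 := by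
    have := congrArg (fun x : ↥(coIndW π R W'') => (x : SL(2, ℤ) → W'') t) hu0
    simpa [coIndW_map_apply'] using this
  by_cases h : IsDist Γ₀ t
  · rw [if_pos h, h0]; rfl
  · rw [if_neg h, map_zero]; rfl

variable [Invertible (2 : R)]

include R in
/-- **Crossed homomorphisms lift along equivariant surjections**, `3` not necessarily invertible,
for a subgroup without elements of order `3`. -/
theorem Z1_map_surjective_of_noOrderThree (hneg : (-1 : SL(2, ℤ)) ∈ Γ₀) (hπ : π ⟨-1, hneg⟩ = 1)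
    (hfree : NoOrderThree Γ₀)
    (v : W →ₗ[R] W'') (hv : IsEquivar G v) (hsurj : Function.Surjective v) :
    Function.Surjective (Z1.map π v hv) := by
  intro f''
  -- the extension `f̃ (t) = f'' (γ_t)` and the cocycle `F'' (s) (t) = f̃ (t s) - f̃ (t)`
  set ft : SL(2, ℤ) → W'' := fun t => (f'' : ↥Γ₀ → W'') (rcomp Γ₀ t) with hft
  have hft_mul : ∀ (γ : ↥Γ₀) (t : SL(2, ℤ)), ft ((γ : SL(2, ℤ)) * t) =
      (f'' : ↥Γ₀ → W'') γ + π γ • ft t := by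
    intro γ t
    simp only [hft]
    rw [rcomp_mul, f''.2]
  let F'' : SL(2, ℤ) → ↥(coIndW π R W'') := fun s => ⟨fun t => ft (t * s) - ft t, by
    intro γ t
    show ft ((γ : SL(2, ℤ)) * t * s) - ft ((γ : SL(2, ℤ)) * t) = π γ • (ft (t * s) - ft t)
    rw [mul_assoc, hft_mul, hft_mul, smul_sub]
    abel⟩
  have hF'' : ∀ s s', F'' (s * s') = F'' s + s • F'' s' := by
    intro s s'
    apply Subtype.ext
    funext t
    show ft (t * (s * s')) - ft t = (ft (t * s) - ft t) + (ft (t * s * s') - ft (t * s))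
    rw [mul_assoc]
    abel
  obtain ⟨F, hF, hFv⟩ := exists_crossed_lift_of_tate R
    (coIndW_neg_one_smul (π := π) (R := R) (W := W) hneg hπ)
    (coIndW_neg_one_smul (π := π) (R := R) (W := W'') hneg hπ)
    (coIndW.map (π := π) v hv) (fun g u => rfl) (coIndW_map_surjective' v hv hsurj)
    (fun a ha0 haρ => coIndW_tate hneg hfree v hv a ha0 haρ) F'' hF''
  -- evaluate at `1`
  obtain ⟨w, hw⟩ := hsurj (ft 1)
  have hfZ : (fun γ : ↥Γ₀ => (F (γ : SL(2, ℤ)) : SL(2, ℤ) → W) 1 - (π γ • w - w)) ∈ Z1 π R W := by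
    intro γ γ'
    show (F ((γ : SL(2, ℤ)) * (γ' : SL(2, ℤ))) : SL(2, ℤ) → W) 1 - (π (γ * γ') • w - w) =
      (F (γ : SL(2, ℤ)) : SL(2, ℤ) → W) 1 - (π γ • w - w) +
        π γ • ((F (γ' : SL(2, ℤ)) : SL(2, ℤ) → W) 1 - (π γ' • w - w))
    rw [hF]
    show (F (γ : SL(2, ℤ)) : SL(2, ℤ) → W) 1 + (F (γ' : SL(2, ℤ)) : SL(2, ℤ) → W) (1 * (γ : SL(2, ℤ)))
      - (π (γ * γ') • w - w) = _
    have h1 : (F (γ' : SL(2, ℤ)) : SL(2, ℤ) → W) (1 * (γ : SL(2, ℤ))) =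
        π γ • (F (γ' : SL(2, ℤ)) : SL(2, ℤ) → W) 1 := by
      rw [one_mul]
      have := (F (γ' : SL(2, ℤ))).2 γ 1
      rwa [mul_one] at this
    rw [h1, map_mul, mul_smul]
    simp only [smul_sub]
    abel
  refine ⟨⟨_, hfZ⟩, ?_⟩
  apply Subtype.ext
  funext γ
  show v ((F (γ : SL(2, ℤ)) : SL(2, ℤ) → W) 1 - (π γ • w - w)) = (f'' : ↥Γ₀ → W'') γ
  have h2 : v ((F (γ : SL(2, ℤ)) : SL(2, ℤ) → W) 1) = ft (1 * (γ : SL(2, ℤ))) - ft 1 := by
    have := congrArg (fun u : ↥(coIndW π R W'') => (u : SL(2, ℤ) → W'') 1) (hFv (γ : SL(2, ℤ)))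
    exact this
  rw [map_sub, map_sub, hv, hw, h2, one_mul]
  have h3 : ft (γ : SL(2, ℤ)) = (f'' : ↥Γ₀ → W'') γ + π γ • ft 1 := by
    have := hft_mul γ 1
    rwa [mul_one] at this
  rw [h3]
  abel

end Fermat.Agent.S59lib.Wa
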