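/-
S59lib / Wa / LevelFreeThree  (helper3).   Project I, item (W-a): the `p = 3` version of
`S43lib/B1/LevelFree`.

* `noOrderThree_Gamma0` : `Γ₀(M)` contains no conjugate of `S T` as soon as some prime
  `r ≡ 2 mod 3` divides `M` (`-3` is not a square modulo `r`);
* `lvlSys_rightExact_of_noOrderThree`, `lvlSys_exists_basis_of_noOrderThree` : right exactness
  (`H² = 0`) and the freeness theorem for the level system of `Γ₀(M)` over a coefficient ring in
  which only `2` is invertible (so residue characteristic `3` is allowed).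
-/
import Mathlib
import Fermat.Agent.S43lib.B1.LevelFree
import Fermat.Agent.S59lib.Wa.ShapiroFree

set_option autoImplicit false
set_option linter.unusedSectionVars false
set_option linter.unusedVariables false

noncomputable section

namespace Fermat.Agent.S59lib.Wa

open CongruenceSubgroup Matrix.SpecialLinearGroup IsLocalRing MvPolynomial ModularGroup
open Fermat.Agent.S41lib.HC Fermat.Agent.S43lib.B1
open scoped MatrixGroups

/-- a root of `x² - x + 1` modulo a prime `r` forces `r = 3` or `r ≡ 1 mod 3` -/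
theorem mod_three_of_root {r : ℕ} [Fact r.Prime] (x : ZMod r) (hx : x * x - x + 1 = 0) :
    r % 3 ≠ 2 := by
  intro hr
  have hr3 : r ≠ 3 := by rintro rfl; omega
  have hx3 : (-x) ^ 3 = 1 := by
    have : x ^ 3 + 1 = (x + 1) * (x * x - x + 1) := by ring
    rw [hx, mul_zero] at this
    have h1 : x ^ 3 = -1 := eq_neg_of_add_eq_zero_left this
    rw [neg_pow, h1]
    norm_num
  have hne1 : -x ≠ 1 := by
    intro h
    have hx' : x = -1 := by rw [← h, neg_neg]
    rw [hx'] at hx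
    have h3 : (3 : ZMod r) = 0 := by
      have : (-1 : ZMod r) * -1 - -1 + 1 = 3 := by norm_num
      rw [← this, hx]
    have h3' : ((3 : ℕ) : ZMod r) = 0 := by exact_mod_cast h3
    rw [ZMod.natCast_eq_zero_iff] at h3'
    have hp3 : Nat.Prime 3 := by norm_num
    exact hr3 ((Nat.prime_dvd_prime_iff_eq Fact.out hp3).1 h3')
  have hne0 : -x ≠ 0 := by
    intro h
    rw [h] at hx3
    simp at hx3
  have hord : orderOf (-x) = 3 := by
    have hdvd : orderOf (-x) ∣ 3 := orderOf_dvd_of_pow_eq_one hx3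
    have hp3 : Nat.Prime 3 := by norm_num
    rcases (Nat.dvd_prime hp3).1 hdvd with h | h
    · exact absurd (orderOf_eq_one_iff.1 h) hne1
    · exact h
  have hcard : (-x) ^ (r - 1) = 1 := ZMod.pow_card_sub_one_eq_one hne0
  have h3dvd : 3 ∣ r - 1 := by
    rw [← hord]
    exact orderOf_dvd_of_pow_eq_one hcard
  have hr1 : 1 ≤ r := (Fact.out : r.Prime).one_lt.le
  omega

theorem trace_ST : Matrix.trace ((S * T : SL(2, ℤ)) : Matrix (Fin 2) (Fin 2) ℤ) = 1 := by
  simp [Matrix.SpecialLinearGroup.coe_mul, coe_S, coe_T, Matrix.trace_fin_two]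

/-- **`Γ₀(M)` has no elements of order `3`** when a prime `r ≡ 2 mod 3` divides `M`. -/
theorem noOrderThree_Gamma0 {M r : ℕ} (hr : r.Prime) (hrM : r ∣ M) (hr3 : r % 3 = 2) :
    NoOrderThree (Gamma0 M) := by
  intro t ht
  have : Fact r.Prime := ⟨hr⟩
  set g : SL(2, ℤ) := t * (S * T) * t⁻¹ with hg
  -- the lower left entry vanishes modulo `r`
  have hc : ((g 1 0 : ℤ) : ZMod r) = 0 := by
    rw [Gamma0_mem] at ht
    have h1 : (M : ℤ) ∣ g 1 0 := (ZMod.intCast_zmod_eq_zero_iff_dvd _ _).1 ht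
    have h2 : (r : ℤ) ∣ g 1 0 := dvd_trans (by exact_mod_cast hrM) h1
    exact (ZMod.intCast_zmod_eq_zero_iff_dvd _ _).2 h2
  -- trace and determinant
  have htr : g 0 0 + g 1 1 = 1 := by
    have h1 : Matrix.trace (g : Matrix (Fin 2) (Fin 2) ℤ) = 1 := by
      rw [hg, Matrix.SpecialLinearGroup.coe_mul, Matrix.SpecialLinearGroup.coe_mul,
        Matrix.trace_mul_cycle, ← Matrix.SpecialLinearGroup.coe_mul,
        ← Matrix.SpecialLinearGroup.coe_mul]
      rw [← mul_assoc, inv_mul_cancel, one_mul]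
      exact trace_ST
    rw [Matrix.trace_fin_two] at h1
    exact h1
  have hdet : g 0 0 * g 1 1 - g 0 1 * g 1 0 = 1 := by
    have := g.det_coe
    rw [Matrix.det_fin_two] at this
    exact this
  -- modulo `r`
  have htr' : ((g 0 0 : ℤ) : ZMod r) + ((g 1 1 : ℤ) : ZMod r) = 1 := by
    have := congrArg (Int.cast : ℤ → ZMod r) htr
    push_cast at this
    exact this
  have hdet' : ((g 0 0 : ℤ) : ZMod r) * ((g 1 1 : ℤ) : ZMod r) = 1 := by
    have := congrArg (Int.cast : ℤ → ZMod r) hdet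
    push_cast at this
    rw [hc, mul_zero, sub_zero] at this
    exact this
  refine mod_three_of_root ((g 0 0 : ℤ) : ZMod r) ?_ hr3
  have hd : ((g 1 1 : ℤ) : ZMod r) = 1 - ((g 0 0 : ℤ) : ZMod r) := by
    rw [← htr']; ring
  rw [hd] at hdet'
  linear_combination -hdet'

variable {M : ℕ} [NeZero M] {G : Type} [CommGroup G] (χ : (ZMod M)ˣ →* G) {I : Type}
  (f : I → LvlIdx M) (hcomm : CommStmt M)

/-- right exactness for the level system: `H² = 0`, only `2` invertible, no elements of order `3` -/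
theorem lvlSys_rightExact_of_noOrderThree (hχ : χ (-1) = 1) (h3 : NoOrderThree (Gamma0 M))
    (𝒪 : Type) [CommRing 𝒪] [Invertible (2 : 𝒪)] : (lvlSys χ f hcomm).RightExact 𝒪 := by
  intro W W'' _ _ _ _ _ _ _ _ v hv hsurj
  refine Z1_map_surjective_of_noOrderThree (R := 𝒪) (π := levelPi χ) (neg_one_mem_Gamma0 M) ?_ h3
    v hv hsurj
  rw [levelPi_apply, unitHom_neg_one, hχ]

variable [Fintype G] {𝒪 : Type} [CommRing 𝒪] [IsDomain 𝒪] [IsLocalRing 𝒪] [IsNoetherianRing 𝒪]
  [IsAdicComplete (maximalIdeal 𝒪) 𝒪] [Finite (ResidueField 𝒪)]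
  [Invertible (2 : 𝒪)]

/-- **Freeness of the localised cohomology of `Γ₀(M)` with coefficients in `𝒪[G]` over `𝒪[G]`**,
residue characteristic `3` allowed. -/
theorem lvlSys_exists_basis_of_noOrderThree {p : ℕ} [Fact p.Prime] (hG : IsPGroup p G)
    (hχ : χ (-1) = 1) (h3 : NoOrderThree (Gamma0 M))
    {ϖ : 𝒪} (hϖ : maximalIdeal 𝒪 = Ideal.span {ϖ}) (hϖ0 : ϖ ≠ 0)
    (hp𝒪 : (p : 𝒪) ∈ maximalIdeal 𝒪)
    (𝔪 : Ideal (MvPolynomial I 𝒪)) [𝔪.IsMaximal] (hne : (lvlSys χ f hcomm).NonEis 𝔪) :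
    ∃ (r : ℕ) (b : Fin r → (lvlSys χ f hcomm).F 𝒪 (Reg G 𝒪) 𝔪),
      Nat.card ((lvlSys χ f hcomm).F 𝒪 (TrivMod G (ResidueField 𝒪)) 𝔪) =
        Nat.card (ResidueField 𝒪) ^ r ∧
      ∀ x, ∃! c : Fin r → Reg G 𝒪, x = (lvlSys χ f hcomm).combo 𝔪 b c :=
  (lvlSys χ f hcomm).exists_basis_reg 𝔪 (lvlSys_rightExact_of_noOrderThree χ f hcomm hχ h3 𝒪)
    hne hG hϖ hϖ0 hp𝒪

end Fermat.Agent.S59lib.Wa
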