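/-
S59lib / Wa / TWThree  (helper3).   Project I, item (W-a): **the Taylor–Wiles control theorem in
residue characteristic `3`**.

`twControl_three : TWControlStmtThree` = `S43lib.B1.twControl` with the instance
`[Invertible (3 : 𝒪)]` replaced by the hypothesis `NoOrderThree (Gamma0 M₀)` on the base level
(`Wa.noOrderThree_Gamma0`: true as soon as a prime `r₀ ≡ 2 mod 3` divides `M₀`).  The proofs are
those of `S43lib/B1/{TWFlex,TWMulti,Control}` verbatim; the only change is the source of right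
exactness (`Wa.lvlSys_rightExact_of_noOrderThree` instead of `B1.lvlSys_rightExact`).
-/
import Fermat.Agent.S43lib.B1.Control
import Fermat.Agent.S59lib.Wa.LevelFreeThree

set_option autoImplicit false
set_option linter.unusedSectionVars false
set_option linter.unusedVariables false

noncomputable section

namespace Fermat.Agent.S59lib.Wa

open MvPolynomial IsLocalRing CongruenceSubgroup
open Fermat.Agent.S41lib.HC Fermat.Agent.S31lib.PET Fermat.Agent.S43lib.B1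

theorem Gamma0_le_of_dvd' {N M : ℕ} (h : N ∣ M) : Gamma0 M ≤ Gamma0 N := by
  intro g hg
  rw [Gamma0_mem] at hg ⊢
  have h1 : (M : ℤ) ∣ g 1 0 := (ZMod.intCast_zmod_eq_zero_iff_dvd _ _).1 hg
  exact (ZMod.intCast_zmod_eq_zero_iff_dvd _ _).2 (dvd_trans (by exact_mod_cast h) h1)

/-! ### The step -/

section flex

variable {𝒪 : Type} [CommRing 𝒪] [IsLocalRing 𝒪] [IsNoetherianRing 𝒪]
  [IsAdicComplete (maximalIdeal 𝒪) 𝒪] [Finite (ResidueField 𝒪)]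
  [Invertible (2 : 𝒪)]
variable {p : ℕ} [Fact p.Prime]

/-- the step for the literal levels `N`, `N * q` and the character `chiUp χ` -/
theorem twRel_step_lit_three {ϖ : 𝒪} (hϖ : maximalIdeal 𝒪 = Ideal.span {ϖ})
    (hp𝒪 : (p : 𝒪) ∈ maximalIdeal 𝒪)
    {N q : ℕ} [NeZero N] [NeZero (N * q)] [Fact q.Prime] (hqN : ¬ q ∣ N)
    (h3 : NoOrderThree (Gamma0 N))
    {G : Type} [CommGroup G] [Fintype G] (hG : IsPGroup p G) (χ : (ZMod N)ˣ →* G)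
    (hχ1 : χ (-1) = 1)
    {I : Type} (f' : I → LvlIdx (N * q)) (f : I → LvlIdx N)
    (hf : ∀ i, f i = LvlIdx.down (dvd_mul_right N q) (f' i))
    (o z : I) (ho : ∃ h : q.Prime ∧ q ∣ N * q, f' o = Sum.inl (Sum.inr ⟨q, h⟩))
    (hinj : ∀ i, f' i = f' o → i = o)
    (hz : ∃ (u : (ZMod (N * q))ˣ) (v : (ZMod N)ˣ), f' z = Sum.inr u ∧
      (v : ZMod N) = (q : ZMod N) ∧ chiUp (q := q) χ u = χ v)
    (ev ev' : MvPolynomial I 𝒪 →+* ResidueField 𝒪)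
    (hevC : ∀ a, ev (C a) = residue 𝒪 a) (hevC' : ∀ a, ev' (C a) = residue 𝒪 a)
    (hevX : ∀ i, i ≠ o → ev (X i) = ev' (X i))
    (hq1 : ((q : ℕ) : ResidueField 𝒪) = 1) (hevz : ev' (X z) = 1)
    (hevo : ev' (X o) * ev (X o) = ev' (X o) ^ 2 + 1) (hα : ev' (X o) ^ 2 ≠ 1)
    (hne : ∃ i, i ≠ o ∧
      ev' (X i) ≠ ((Fintype.card (lvlIota (N * q) (f' i)) : ℕ) : ResidueField 𝒪))
    (𝔪 𝔪' : Ideal (MvPolynomial I 𝒪)) [𝔪.IsMaximal] [𝔪'.IsMaximal]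
    (h𝔪 : ∀ s, s ∈ 𝔪 ↔ ev s = 0) (h𝔪' : ∀ s, s ∈ 𝔪' ↔ ev' s = 0) :
    TWRel (levelSys χ f) (levelSys (chiUp (q := q) χ) f') 𝔪 𝔪' ϖ {o} := by
  classical
  have hq : q.Prime := Fact.out
  obtain ⟨hoh, ho'⟩ := ho
  obtain ⟨u, v, hzu, hv, hu⟩ := hz
  have hzo : z ≠ o := by
    intro h
    rw [h, ho'] at hzu
    exact absurd hzu (by simp)
  have hqC : ev' (C ((q : ℕ) : 𝒪)) = 1 := by rw [hevC', map_natCast, hq1]
  -- the index hypotheses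
  have H : StepIdx hqN χ f' f o z := by
    refine ⟨hf, ⟨hoh, ho'⟩, hinj, u, hzu, ?_⟩
    rw [← chiUp_apply, hu]
    congr 1
    apply Units.ext
    rw [hv, coe_ellUnit]
  -- the points
  have hp : TWAlg.Pts o ev ev' 𝔪 𝔪' z ((q : ℕ) : 𝒪) := by
    refine ⟨⟨hzo, fun a => by rw [hevC, hevC'], hevX, ?_⟩, h𝔪, h𝔪', ?_⟩
    · rw [hqC, hevz, mul_one]
      exact hevo
    · intro h0
      rw [h0, zero_mul, zero_pow two_ne_zero, zero_add] at hevo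
      exact zero_ne_one hevo
  -- exactness and non-Eisenstein
  have hχ1' : chiUp (q := q) χ (-1) = 1 := by rw [chiUp_apply, unitsMap_neg_one, hχ1]
  have hS := lvlSys_rightExact_of_noOrderThree χ f (commStmt N) hχ1 h3 𝒪
  have hS' := lvlSys_rightExact_of_noOrderThree (chiUp (q := q) χ) f' (commStmt (N * q)) hχ1'
    (h3.mono (Gamma0_le_of_dvd' (dvd_mul_right N q))) 𝒪
  obtain ⟨i₀, hi₀, hne₀⟩ := hne
  have hne' : (levelSys (chiUp (q := q) χ) f').NonEis 𝔪' := by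
    refine ⟨i₀, ?_⟩
    rw [h𝔪', map_sub, hevC', map_natCast]
    exact sub_ne_zero.mpr hne₀
  have hneS : (levelSys χ f).NonEis 𝔪 := by
    refine ⟨i₀, ?_⟩
    rw [h𝔪, map_sub, hevC, map_natCast, hevX i₀ hi₀]
    apply sub_ne_zero.mpr
    have hc : Fintype.card ((levelSys χ f).ι i₀) = Fintype.card (lvlIota (N * q) (f' i₀)) := by
      show Fintype.card (lvlIota N (f i₀)) = _
      rw [hf i₀]
      refine card_lvlIota_down hq (f' i₀) (fun h' hi' => hi₀ (hinj i₀ ?_))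
      rw [hi', ho']
    rw [hc]
    exact hne₀
  have : Module.Finite 𝒪 (TrivMod G (ResidueField 𝒪)) := Module.Finite.of_finite
  have h0 := twΦ_bijective_resField H hp hevC' hq1 hevz hα
  have hfin : ∀ (W : Type) [AddCommGroup W] [Module 𝒪 W] [DistribMulAction G W]
      [SMulCommClass G 𝒪 W] [Module.Finite 𝒪 W] [Finite W],
      Function.Bijective ((twNat H hp).Φ W) := fun W _ _ _ _ _ _ =>
    NatF.bijective_of_finite (twNat H hp) hS hS' hneS hne' hG hϖ hp𝒪 h0 W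
  refine ⟨twNat H hp, fun W _ _ _ _ _ hW => ?_, fun i hi W _ _ _ _ _ y => ?_⟩
  · rcases hW with hW | hW
    · exact hfin W
    · exact NatF.bijective_of_torsionFree (twNat H hp) hS hS' hneS hne' hϖ hfin W hW
  · exact twΦ_X H W hp i hi y

/-- **The one-prime Taylor–Wiles comparison**, flexible form. -/
theorem twRel_step_three {ϖ : 𝒪} (hϖ : maximalIdeal 𝒪 = Ideal.span {ϖ})
    (hp𝒪 : (p : 𝒪) ∈ maximalIdeal 𝒪)
    {N M q : ℕ} [NeZero N] [NeZero M] (hq : q.Prime) (hqN : ¬ q ∣ N) (hM : M = N * q)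
    (hdvd : N ∣ M) (h3 : NoOrderThree (Gamma0 N))
    {G : Type} [CommGroup G] [Fintype G] (hG : IsPGroup p G) (χ : (ZMod N)ˣ →* G)
    (χ' : (ZMod M)ˣ →* G) (hχ : ∀ u, χ' u = χ (ZMod.unitsMap hdvd u)) (hχ1 : χ (-1) = 1)
    {I : Type} (f' : I → LvlIdx M) (f : I → LvlIdx N)
    (hf : ∀ i, f i = LvlIdx.down hdvd (f' i))
    (o z : I) (ho : ∃ h : q.Prime ∧ q ∣ M, f' o = Sum.inl (Sum.inr ⟨q, h⟩))
    (hinj : ∀ i, f' i = f' o → i = o)
    (hz : ∃ (u : (ZMod M)ˣ) (v : (ZMod N)ˣ), f' z = Sum.inr u ∧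
      (v : ZMod N) = (q : ZMod N) ∧ χ' u = χ v)
    (ev ev' : MvPolynomial I 𝒪 →+* ResidueField 𝒪)
    (hevC : ∀ a, ev (C a) = residue 𝒪 a) (hevC' : ∀ a, ev' (C a) = residue 𝒪 a)
    (hevX : ∀ i, i ≠ o → ev (X i) = ev' (X i))
    (hq1 : ((q : ℕ) : ResidueField 𝒪) = 1) (hevz : ev' (X z) = 1)
    (hevo : ev' (X o) * ev (X o) = ev' (X o) ^ 2 + 1) (hα : ev' (X o) ^ 2 ≠ 1)
    (hne : ∃ i, i ≠ o ∧
      ev' (X i) ≠ ((Fintype.card (lvlIota M (f' i)) : ℕ) : ResidueField 𝒪))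
    (𝔪 𝔪' : Ideal (MvPolynomial I 𝒪)) [𝔪.IsMaximal] [𝔪'.IsMaximal]
    (h𝔪 : ∀ s, s ∈ 𝔪 ↔ ev s = 0) (h𝔪' : ∀ s, s ∈ 𝔪' ↔ ev' s = 0) :
    TWRel (levelSys χ f) (levelSys χ' f') 𝔪 𝔪' ϖ {o} := by
  subst hM
  have : Fact q.Prime := ⟨hq⟩
  have hχ' : χ' = chiUp (q := q) χ := by
    ext u
    rw [hχ]
    rfl
  subst hχ'
  exact twRel_step_lit_three hϖ hp𝒪 hqN h3 hG χ hχ1 f' f hf o z ho hinj hz ev ev' hevC hevC' hevX hq1 hevz
    hevo hα hne 𝔪 𝔪' h𝔪 h𝔪'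

end flex

/-! ### The induction -/

section multi

variable {𝒪 : Type} [CommRing 𝒪] [IsLocalRing 𝒪] [IsNoetherianRing 𝒪]
  [IsAdicComplete (maximalIdeal 𝒪) 𝒪] [Finite (ResidueField 𝒪)]
  [Invertible (2 : 𝒪)]
variable {p : ℕ} [Fact p.Prime]

/-- two points with the same values define the same ideal -/
theorem ideal_eq_of_ev_three {I : Type} {ev ev' : MvPolynomial I 𝒪 →+* ResidueField 𝒪}
    (hC : ∀ a, ev (C a) = ev' (C a)) (hX : ∀ i, ev (X i) = ev' (X i))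
    {𝔪 𝔪' : Ideal (MvPolynomial I 𝒪)} (h𝔪 : ∀ s, s ∈ 𝔪 ↔ ev s = 0)
    (h𝔪' : ∀ s, s ∈ 𝔪' ↔ ev' s = 0) : 𝔪 = 𝔪' := by
  have h : ev = ev' := MvPolynomial.ringHom_ext hC hX
  ext s
  rw [h𝔪, h𝔪', h]

/-- **The multi-prime Taylor–Wiles comparison.** -/
theorem twRel_multi_three {ϖ : 𝒪} (hϖ : maximalIdeal 𝒪 = Ideal.span {ϖ})
    (hp𝒪 : (p : 𝒪) ∈ maximalIdeal 𝒪)
    {M₀ : ℕ} [NeZero M₀] (h3 : NoOrderThree (Gamma0 M₀))
    {G₀ : Type} [CommGroup G₀] [Fintype G₀] (hG : IsPGroup p G₀)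
    (χ₀ : (ZMod M₀)ˣ →* G₀) (hχ1 : χ₀ (-1) = 1) {I : Type} (f₀ : I → LvlIdx M₀) (o z : ℕ → I)
    (ev₀ : MvPolynomial I 𝒪 →+* ResidueField 𝒪) (hev₀C : ∀ a, ev₀ (C a) = residue 𝒪 a)
    (𝔪₀ : Ideal (MvPolynomial I 𝒪)) [𝔪₀.IsMaximal] (h𝔪₀ : ∀ s, s ∈ 𝔪₀ ↔ ev₀ s = 0) :
    ∀ (Q : List ℕ), Q.Nodup → ∀ {M : ℕ} [NeZero M] (hdvd : M₀ ∣ M) (χ : (ZMod M)ˣ →* G₀)
      (f : I → LvlIdx M) (ev : MvPolynomial I 𝒪 →+* ResidueField 𝒪)
      (H : TWHyp 𝒪 hdvd χ₀ χ f₀ f o z ev₀ ev Q) (𝔪 : Ideal (MvPolynomial I 𝒪)) [𝔪.IsMaximal]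
      (h𝔪 : ∀ s, s ∈ 𝔪 ↔ ev s = 0),
      TWRel (levelSys χ₀ f₀) (levelSys χ f) 𝔪₀ 𝔪 ϖ {i | ∃ q ∈ Q, i = o q} := by
  classical
  intro Q
  induction Q with
  | nil =>
    intro _ M _ hdvd χ f ev H 𝔪 _ h𝔪
    have hM : M = M₀ := by simpa using H.hM
    subst hM
    have hχ : χ = χ₀ := by
      ext u
      rw [H.hχ, ZMod.unitsMap_self]
      rfl
    have hf : f = f₀ := by
      funext i
      rw [H.hf, LvlIdx.down_self]
    have h𝔪eq : 𝔪 = 𝔪₀ := by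
      refine ideal_eq_of_ev_three (fun a => by rw [H.hevC, hev₀C]) (fun i => ?_) h𝔪 h𝔪₀
      exact (H.hevX i (fun q hq => absurd hq (List.not_mem_nil))).symm
    subst hχ hf h𝔪eq
    exact (TWRel.refl _ _ ϖ).mono (Set.empty_subset _)
  | cons q Q' ih =>
    intro hnd M _ hdvd χ f ev H 𝔪 _ h𝔪
    have hqQ' : q ∉ Q' := (List.nodup_cons.mp hnd).1
    have hnd' : Q'.Nodup := (List.nodup_cons.mp hnd).2
    obtain ⟨hq, hqM₀, hq1⟩ := H.hQp q (List.mem_cons_self)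
    have hQ'p : ∀ r ∈ Q', r.Prime := fun r hr => (H.hQp r (List.mem_cons_of_mem q hr)).1
    -- the intermediate level
    set M' : ℕ := M₀ * Q'.prod with hM'def
    have hMM' : M = M' * q := by
      rw [H.hM, List.prod_cons, hM'def]
      ring
    have hM'M : M' ∣ M := ⟨q, hMM'⟩
    have hdvd' : M₀ ∣ M' := ⟨Q'.prod, rfl⟩
    have : NeZero M' := ⟨fun h0 => NeZero.ne M (by rw [hMM', h0, zero_mul])⟩
    have hqM' : ¬ q ∣ M' := by
      intro h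
      rcases (Nat.Prime.dvd_mul hq).mp h with h | h
      · exact hqM₀ h
      · exact prime_not_dvd_list_prod hq Q' hQ'p hqQ' h
    -- the intermediate data
    set χ' : (ZMod M')ˣ →* G₀ := χ₀.comp (ZMod.unitsMap hdvd') with hχ'def
    set f' : I → LvlIdx M' := fun i => LvlIdx.down hM'M (f i) with hf'def
    set vals : I → ResidueField 𝒪 := fun i => if i = o q then ev₀ (X (o q)) else ev (X i)
      with hvals
    set ev' : MvPolynomial I 𝒪 →+* ResidueField 𝒪 := eval₂Hom (residue 𝒪) vals with hev'def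
    have hev'C : ∀ a, ev' (C a) = residue 𝒪 a := fun a => by rw [hev'def, coe_eval₂Hom, eval₂_C]
    have hev'X : ∀ i, ev' (X i) = vals i := fun i => by rw [hev'def, coe_eval₂Hom, eval₂_X]
    have hev'o : ev' (X (o q)) = ev₀ (X (o q)) := by rw [hev'X, hvals]; exact if_pos rfl
    have hev'ne : ∀ i, i ≠ o q → ev' (X i) = ev (X i) := fun i hi => by
      rw [hev'X, hvals]
      exact if_neg hi
    have hev'sur : Function.Surjective ev' := by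
      intro c
      obtain ⟨a, rfl⟩ := residue_surjective c
      exact ⟨C a, hev'C a⟩
    set 𝔪' : Ideal (MvPolynomial I 𝒪) := RingHom.ker ev' with h𝔪'def
    have : 𝔪'.IsMaximal := RingHom.ker_isMaximal_of_surjective ev' hev'sur
    have h𝔪' : ∀ s, s ∈ 𝔪' ↔ ev' s = 0 := fun s => RingHom.mem_ker
    -- facts on the indices
    obtain ⟨hoq, hfoq⟩ := H.ho q (List.mem_cons_self)
    have hoo : ∀ r ∈ Q', o r ≠ o q := by
      intro r hr h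
      obtain ⟨hor, hfor⟩ := H.ho r (List.mem_cons_of_mem q hr)
      rw [h, hfoq] at hfor
      have h1 : q = r := congrArg Subtype.val (Sum.inr.inj (Sum.inl.inj hfor))
      exact hqQ' (h1 ▸ hr)
    have hzo : ∀ r ∈ q :: Q', z r ≠ o q := by
      intro r hr h
      obtain ⟨u, hu, -⟩ := H.hz r hr
      rw [h, hfoq] at hu
      exact absurd hu (by simp)
    -- the hypotheses at the intermediate level
    have H' : TWHyp 𝒪 hdvd' χ₀ χ' f₀ f' o z ev₀ ev' Q' := by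
      refine ⟨rfl, fun r hr => H.hQp r (List.mem_cons_of_mem q hr), fun u => rfl, fun i => ?_,
        fun r hr => ?_, fun r hr i hi => ?_, fun r hr => ?_, hev'C, fun i hi => ?_,
        fun r hr => ?_, fun r hr => ?_, fun r hr => ?_, ?_⟩
      · rw [hf'def, LvlIdx.down_down, H.hf]
      · obtain ⟨hor, hfor⟩ := H.ho r (List.mem_cons_of_mem q hr)
        have hrM' : r ∣ M' := by
          rw [hM'def]
          exact dvd_mul_of_dvd_right (List.dvd_prod hr) M₀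
        refine ⟨⟨hor.1, hrM'⟩, ?_⟩
        show LvlIdx.down hM'M (f (o r)) = _
        rw [hfor]
        simp only [LvlIdx.down, dif_pos hrM']
      · obtain ⟨hor, hfor⟩ := H.ho r (List.mem_cons_of_mem q hr)
        have hrM' : r ∣ M' := by
          rw [hM'def]
          exact dvd_mul_of_dvd_right (List.dvd_prod hr) M₀
        have h1 : LvlIdx.down hM'M (f (o r)) = Sum.inl (Sum.inr ⟨r, hor.1, hrM'⟩) := by
          rw [hfor]
          simp only [LvlIdx.down, dif_pos hrM']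
        have h2 : LvlIdx.down hM'M (f i) = Sum.inl (Sum.inr ⟨r, hor.1, hrM'⟩) := hi.trans h1
        have h3 := LvlIdx.eq_of_down_eq_U hM'M (f i) r ⟨hor.1, hrM'⟩ h2
        exact H.hinj r (List.mem_cons_of_mem q hr) i (h3.trans hfor.symm)
      · obtain ⟨u, hu, huq⟩ := H.hz r (List.mem_cons_of_mem q hr)
        refine ⟨ZMod.unitsMap hM'M u, ?_, ?_⟩
        · show LvlIdx.down hM'M (f (z r)) = _
          rw [hu]
          rfl
        · rw [← huq, ← MonoidHom.comp_apply, ZMod.unitsMap_comp]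
      · by_cases hi' : i = o q
        · rw [hi', hev'o]
        · rw [hev'ne i hi']
          refine H.hevX i (fun r hr => ?_)
          rcases List.mem_cons.mp hr with rfl | hr
          · exact hi'
          · exact hi r hr
      · rw [hev'ne _ (hzo r (List.mem_cons_of_mem q hr))]
        exact H.hevz r (List.mem_cons_of_mem q hr)
      · rw [hev'ne _ (hoo r hr)]
        exact H.hevo r (List.mem_cons_of_mem q hr)
      · rw [hev'ne _ (hoo r hr)]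
        exact H.hα r (List.mem_cons_of_mem q hr)
      · obtain ⟨i₀, hi₀, hne₀⟩ := H.hne
        have hi₀q : i₀ ≠ o q := hi₀ q (List.mem_cons_self)
        refine ⟨i₀, fun r hr => hi₀ r (List.mem_cons_of_mem q hr), ?_⟩
        rw [hev'ne i₀ hi₀q]
        have hc : Fintype.card (lvlIota M' (f' i₀)) = Fintype.card (lvlIota M (f i₀)) := by
          refine card_lvlIota_down' hq hMM' hM'M (f i₀) (fun h' hi' => hi₀q ?_)
          refine H.hinj q (List.mem_cons_self) i₀ ?_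
          rw [hi', hfoq]
        rw [hc]
        exact hne₀
    have R₁ := ih hnd' hdvd' χ' f' ev' H' 𝔪' h𝔪'
    -- the step
    have hχ'1 : χ' (-1) = 1 := by
      rw [hχ'def, MonoidHom.comp_apply, unitsMap_neg_one, hχ1]
    have hcop : Nat.Coprime q M' := (Nat.Prime.coprime_iff_not_dvd hq).mpr hqM'
    have R₂ : TWRel (levelSys χ' f') (levelSys χ f) 𝔪' 𝔪 ϖ {o q} := by
      refine twRel_step_three hϖ hp𝒪 hq hqM' hMM' hM'M (h3.mono (Gamma0_le_of_dvd' hdvd')) hG χ' χ (fun u => ?_) hχ'1 f f' (fun i => rfl)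
        (o q) (z q) ⟨hoq, hfoq⟩ (H.hinj q (List.mem_cons_self)) ?_ ev' ev hev'C H.hevC
        (fun i hi => hev'ne i hi) hq1 (H.hevz q (List.mem_cons_self)) ?_
        (H.hα q (List.mem_cons_self)) ?_ 𝔪' 𝔪 h𝔪' h𝔪
      · rw [H.hχ, hχ'def, MonoidHom.comp_apply, ← MonoidHom.comp_apply (ZMod.unitsMap hdvd'),
          ZMod.unitsMap_comp]
      · obtain ⟨u, hu, huq⟩ := H.hz q (List.mem_cons_self)
        refine ⟨u, ZMod.unitOfCoprime q hcop, hu, ZMod.coe_unitOfCoprime q hcop, ?_⟩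
        rw [H.hχ, hχ'def, MonoidHom.comp_apply]
        congr 1
        apply Units.ext
        rw [huq, ZMod.unitsMap_def, Units.coe_map, ZMod.coe_unitOfCoprime]
        exact (map_natCast (ZMod.castHom hdvd' (ZMod M₀)) q).symm
      · rw [hev'o]
        exact H.hevo q (List.mem_cons_self)
      · obtain ⟨i₀, hi₀, hne₀⟩ := H.hne
        exact ⟨i₀, hi₀ q (List.mem_cons_self), hne₀⟩
    refine (R₁.trans R₂).mono ?_
    rintro i (⟨r, hr, rfl⟩ | hi)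
    · exact ⟨r, List.mem_cons_of_mem q hr, rfl⟩
    · exact ⟨q, List.mem_cons_self, hi⟩

end multi

/-! ### The control theorem -/

/-- **The Taylor–Wiles control statement, residue characteristic `3` allowed**: `S43lib.B1.TWControlStmt`
with `[Invertible (3 : 𝒪)]` replaced by `NoOrderThree (Gamma0 M₀)`. -/
def TWControlStmtThree : Prop :=
  ∀ {𝒪 : Type} [CommRing 𝒪] [IsDomain 𝒪] [IsLocalRing 𝒪] [IsNoetherianRing 𝒪]
    [IsAdicComplete (maximalIdeal 𝒪) 𝒪] [Finite (ResidueField 𝒪)]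
    [Invertible (2 : 𝒪)]
    {p : ℕ} [Fact p.Prime] {ϖ : 𝒪} (_hϖ : maximalIdeal 𝒪 = Ideal.span {ϖ}) (_hϖ0 : ϖ ≠ 0)
    (_hp𝒪 : (p : 𝒪) ∈ maximalIdeal 𝒪)
    {M₀ M : ℕ} [NeZero M₀] [NeZero M] (_h3 : NoOrderThree (Gamma0 M₀)) (Q : List ℕ) (_hQ : Q.Nodup) (hdvd : M₀ ∣ M)
    (_hM : M = M₀ * Q.prod)
    (_hQp : ∀ q ∈ Q, q.Prime ∧ ¬ q ∣ M₀ ∧ ((q : ℕ) : ResidueField 𝒪) = 1)
    {G G₀ : Type} [CommGroup G] [CommGroup G₀] [Fintype G] [Fintype G₀] (_hG : IsPGroup p G)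
    (φ : G →* G₀) (_hφ : Function.Surjective φ)
    (χ : (ZMod M)ˣ →* G) (χ₀ : (ZMod M₀)ˣ →* G₀)
    (_hχ : ∀ u, φ (χ u) = χ₀ (ZMod.unitsMap hdvd u)) (_hχ1 : χ (-1) = 1)
    {I : Type} (f : I → LvlIdx M) (f₀ : I → LvlIdx M₀) (_hf : ∀ i, f₀ i = LvlIdx.down hdvd (f i))
    (o z : ℕ → I)
    (_ho : ∀ q ∈ Q, ∃ h : q.Prime ∧ q ∣ M, f (o q) = Sum.inl (Sum.inr ⟨q, h⟩))
    (_hinj : ∀ q ∈ Q, ∀ i, f i = f (o q) → i = o q)
    (_hz : ∀ q ∈ Q, ∃ u : (ZMod M)ˣ, f (z q) = Sum.inr u ∧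
      ((ZMod.unitsMap hdvd u : (ZMod M₀)ˣ) : ZMod M₀) = (q : ZMod M₀))
    (ev ev₀ : MvPolynomial I 𝒪 →+* ResidueField 𝒪)
    (_hevC : ∀ a, ev (C a) = residue 𝒪 a) (_hev₀C : ∀ a, ev₀ (C a) = residue 𝒪 a)
    (_hevX : ∀ i, (∀ q ∈ Q, i ≠ o q) → ev₀ (X i) = ev (X i))
    (_hevz : ∀ q ∈ Q, ev (X (z q)) = 1)
    (_hevo : ∀ q ∈ Q, ev (X (o q)) * ev₀ (X (o q)) = ev (X (o q)) ^ 2 + 1)
    (_hα : ∀ q ∈ Q, ev (X (o q)) ^ 2 ≠ 1)
    (_hne : ∃ i, (∀ q ∈ Q, i ≠ o q) ∧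
      ev (X i) ≠ ((Fintype.card (lvlIota M (f i)) : ℕ) : ResidueField 𝒪))
    (𝔪 𝔪₀ : Ideal (MvPolynomial I 𝒪)) [𝔪.IsMaximal] [𝔪₀.IsMaximal]
    (_h𝔪 : ∀ s, s ∈ 𝔪 ↔ ev s = 0) (_h𝔪₀ : ∀ s, s ∈ 𝔪₀ ↔ ev₀ s = 0),
    ∃ (r : ℕ) (b : Fin r → (levelSys χ f).F 𝒪 (Reg G 𝒪) 𝔪)
      (b₀ : Fin r → (levelSys χ₀ f₀).F 𝒪 (Reg G₀ 𝒪) 𝔪₀)
      (v : (levelSys χ f).F 𝒪 (Reg G 𝒪) 𝔪 →+ (levelSys χ₀ f₀).F 𝒪 (Reg G₀ 𝒪) 𝔪₀),
      (∀ x, ∃! c : Fin r → Reg G 𝒪, x = (levelSys χ f).combo 𝔪 b c) ∧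
      (∀ x, ∃! c : Fin r → Reg G₀ 𝒪, x = (levelSys χ₀ f₀).combo 𝔪₀ b₀ c) ∧
      Function.Surjective v ∧
      (∀ y, v y = 0 ↔ y ∈ AddSubgroup.closure
        {x | ∃ δ : G, φ δ = 1 ∧ ∃ y', x = (levelSys χ f).Gact 𝔪 δ y' - y'}) ∧
      (∀ i, (∀ q ∈ Q, i ≠ o q) → ∀ y,
        v ((X i : MvPolynomial I 𝒪) • y) = (X i : MvPolynomial I 𝒪) • v y) ∧
      (∀ (a : 𝒪) y, v (a • y) = a • v y) ∧
      (∀ (g : G) y, v ((levelSys χ f).Gact 𝔪 g y) = (levelSys χ₀ f₀).Gact 𝔪₀ (φ g) (v y))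

/-- **The Taylor–Wiles control theorem.** -/
theorem twControl_three : TWControlStmtThree := by
  intro 𝒪 _ _ _ _ _ _ _ p _ ϖ hϖ hϖ0 hp𝒪 M₀ M _ _ h3 Q hQ hdvd hM hQp G G₀ _ _ _ _ hG φ hφ χ χ₀
    hχ hχ1 I f f₀ hf o z ho hinj hz ev ev₀ hevC hev₀C hevX hevz hevo hα hne 𝔪 𝔪₀ _ _ h𝔪 h𝔪₀
  classical
  have hG₀ : IsPGroup p G₀ := hG.of_surjective φ hφ
  have hχ₀1 : χ₀ (-1) = 1 := by
    rw [← unitsMap_neg_one hdvd, ← hχ, hχ1, map_one]
  have H : TWHyp 𝒪 hdvd χ₀ (φ.comp χ) f₀ f o z ev₀ ev Q :=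
    ⟨hM, hQp, hχ, hf, ho, hinj, hz, hevC, hevX, hevz, hevo, hα, hne⟩
  have R : TWRel (levelSys χ₀ f₀) ((levelSys χ f).push φ) 𝔪₀ 𝔪 ϖ {i | ∃ q ∈ Q, i = o q} :=
    twRel_multi_three hϖ hp𝒪 h3 hG₀ χ₀ hχ₀1 f₀ o z ev₀ hev₀C 𝔪₀ h𝔪₀ Q hQ hdvd (φ.comp χ) f ev H 𝔪 h𝔪
  obtain ⟨T, hbij, hX⟩ := R
  -- right exactness and the non-Eisenstein conditions
  have hS : (levelSys χ f).RightExact 𝒪 := lvlSys_rightExact_of_noOrderThree χ f (commStmt M) hχ1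
    (h3.mono (Gamma0_le_of_dvd' hdvd)) 𝒪
  obtain ⟨i₀, hi₀, hne₀⟩ := hne
  have hneTop : (levelSys χ f).NonEis 𝔪 := by
    refine ⟨i₀, ?_⟩
    rw [h𝔪, map_sub, hevC, map_natCast]
    exact sub_ne_zero.mpr hne₀
  have hneBase : (levelSys χ₀ f₀).NonEis 𝔪₀ := by
    refine ⟨i₀, ?_⟩
    rw [h𝔪₀, map_sub, hev₀C, map_natCast, hevX i₀ hi₀]
    apply sub_ne_zero.mpr
    have hc : Fintype.card ((levelSys χ₀ f₀).ι i₀) = Fintype.card (lvlIota M (f i₀)) := by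
      show Fintype.card (lvlIota M₀ (f₀ i₀)) = _
      rw [hf i₀]
      refine card_lvlIota_down_gen hdvd (f i₀) (fun q h hj => ?_)
      by_contra hqM₀
      have hqQ : q ∣ Q.prod := by
        have h1 : q ∣ M₀ * Q.prod := hM ▸ h.2
        rcases (Nat.Prime.dvd_mul h.1).mp h1 with h2 | h2
        · exact absurd h2 hqM₀
        · exact h2
      obtain ⟨r, hr, hqr⟩ := (Prime.dvd_prod_iff h.1.prime).mp hqQ
      have hqr' : q = r := (Nat.prime_dvd_prime_iff_eq h.1 (hQp r hr).1).mp hqr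
      subst hqr'
      obtain ⟨h', hfo⟩ := ho q hr
      exact hi₀ q hr (hinj q hr i₀ (hj.trans hfo.symm))
    rw [hc]
    exact hne₀
  -- the bases
  obtain ⟨r, b, hcard, hb⟩ :=
    lvlSys_exists_basis_of_noOrderThree χ f (commStmt M) hG hχ1
      (h3.mono (Gamma0_le_of_dvd' hdvd)) hϖ hϖ0 hp𝒪 𝔪 hneTop
  obtain ⟨r₀, b₀, hcard₀, hb₀⟩ :=
    lvlSys_exists_basis_of_noOrderThree χ₀ f₀ (commStmt M₀) hG₀ hχ₀1 h3 hϖ hϖ0 hp𝒪 𝔪₀ hneBase
  -- the ranks agree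
  have hr : r₀ = r := by
    have : Module.Finite 𝒪 (TrivMod G₀ (ResidueField 𝒪)) := Module.Finite.of_finite
    have e1 := (levelSys χ f).ctrlTriv_bijective φ 𝔪 (ResidueField 𝒪)
    have e2 := hbij (TrivMod G₀ (ResidueField 𝒪)) (Or.inl inferInstance)
    have h1 := Nat.card_eq_of_bijective _ e1
    have h2 := Nat.card_eq_of_bijective _ e2
    have h3 : Nat.card (ResidueField 𝒪) ^ r₀ = Nat.card (ResidueField 𝒪) ^ r := by
      rw [← hcard, ← hcard₀, h1, h2]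
    have hk2 : 2 ≤ Nat.card (ResidueField 𝒪) := by
      have : 1 < Nat.card (ResidueField 𝒪) := Finite.one_lt_card
      omega
    exact Nat.pow_right_injective hk2 h3
  subst hr
  -- the comparison at `𝒪[G₀]`
  have htf : GoodW ϖ (Reg G₀ 𝒪) := by
    refine Or.inr fun w hw => ?_
    ext x
    have h1 : ϖ * w x = 0 := congrArg (fun w' : Reg G₀ 𝒪 => w' x) hw
    rcases mul_eq_zero.mp h1 with h2 | h2
    · exact absurd h2 hϖ0
    · exact h2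
  have hΨ := hbij (Reg G₀ 𝒪) htf
  set Ψ := AddEquiv.ofBijective (T.Φ (Reg G₀ 𝒪)) hΨ with hΨdef
  have hΨapply : ∀ y, Ψ y = T.Φ (Reg G₀ 𝒪) y := fun y => rfl
  set v : (levelSys χ f).F 𝒪 (Reg G 𝒪) 𝔪 →+ (levelSys χ₀ f₀).F 𝒪 (Reg G₀ 𝒪) 𝔪₀ :=
    Ψ.symm.toAddMonoidHom.comp ((levelSys χ f).ctrl φ 𝔪).toAddMonoidHom with hvdef
  have hv : ∀ y, v y = Ψ.symm ((levelSys χ f).ctrl φ 𝔪 y) := fun y => rfl
  refine ⟨r₀, b, b₀, v, hb, hb₀, ?_, ?_, ?_, ?_, ?_⟩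
  · -- surjectivity
    intro y₀
    obtain ⟨y, hy⟩ := (levelSys χ f).ctrl_surjective φ 𝔪 hS hφ (Ψ y₀)
    exact ⟨y, by rw [hv, hy, AddEquiv.symm_apply_apply]⟩
  · -- the kernel
    intro y
    rw [hv, AddEquiv.map_eq_zero_iff]
    exact (levelSys χ f).ctrl_eq_zero_iff φ 𝔪 hS hφ y
  · -- the Hecke operators
    intro i hi y
    rw [hv, hv, map_smul, AddEquiv.symm_apply_eq, hΨapply,
      hX i (fun ⟨q, hq, hiq⟩ => hi q hq hiq) (Reg G₀ 𝒪), ← hΨapply, AddEquiv.apply_symm_apply]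
  · -- linearity
    intro a y
    rw [hv, hv, ← algebraMap_smul (MvPolynomial I 𝒪) a y, map_smul, algebraMap_smul,
      AddEquiv.symm_apply_eq, hΨapply, T.map_smul', ← hΨapply, AddEquiv.apply_symm_apply]
  · -- the diamond operators
    intro g y
    rw [hv, hv, (levelSys χ f).ctrl_Gact φ 𝔪, AddEquiv.symm_apply_eq, hΨapply, T.map_Gact,
      ← hΨapply, AddEquiv.apply_symm_apply]

end Fermat.Agent.S59lib.Wa
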